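import Fermat.Agent.S58.LocM.CentreVal
import Fermat.Agent.S05

/-!
# S58 / LOCM : valuations of the invariants of an integral model
-/

set_option autoImplicit false
set_option linter.unusedSectionVars false
set_option linter.unusedVariables false

namespace Fermat.Agent.S58.LocM

open Fermat.Agent.S05
open WeierstrassCurve

variable {K : Type*} [Field K] [Algebra ℚ K] [CharZero K]
  {Γ₀ : Type*} [LinearOrderedCommGroupWithZero Γ₀] (v : Valuation K Γ₀) (W : WeierstrassCurve ℤ)

theorem isInt_of : IsInt v ((W.map (Int.castRingHom ℚ))⁄K) where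
  a₁ := by
    change v (algebraMap ℚ K (Int.castRingHom ℚ W.a₁)) ≤ 1
    rw [eq_intCast, map_intCast]; exact valInt_le v _
  a₂ := by
    change v (algebraMap ℚ K (Int.castRingHom ℚ W.a₂)) ≤ 1
    rw [eq_intCast, map_intCast]; exact valInt_le v _
  a₃ := by
    change v (algebraMap ℚ K (Int.castRingHom ℚ W.a₃)) ≤ 1
    rw [eq_intCast, map_intCast]; exact valInt_le v _
  a₄ := by
    change v (algebraMap ℚ K (Int.castRingHom ℚ W.a₄)) ≤ 1
    rw [eq_intCast, map_intCast]; exact valInt_le v _
  a₆ := by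
    change v (algebraMap ℚ K (Int.castRingHom ℚ W.a₆)) ≤ 1
    rw [eq_intCast, map_intCast]; exact valInt_le v _

lemma c₄_of : ((W.map (Int.castRingHom ℚ))⁄K).c₄ = (W.c₄ : K) := by
  change ((W.map (Int.castRingHom ℚ)).map (algebraMap ℚ K)).c₄ = _
  rw [map_c₄, map_c₄, eq_intCast, map_intCast]

lemma Δ_of : ((W.map (Int.castRingHom ℚ))⁄K).Δ = (W.Δ : K) := by
  change ((W.map (Int.castRingHom ℚ)).map (algebraMap ℚ K)).Δ = _
  rw [map_Δ, map_Δ, eq_intCast, map_intCast]

end Fermat.Agent.S58.LocM
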