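import Fermat.Agent.S58.LocM.Defs
import Fermat.Agent.S05.Inertia
import Fermat.Agent.S13.LocalInertia

/-!
# S58 / LOCM : the Galois action in the shifted coordinates
-/

set_option autoImplicit false
set_option linter.unusedSectionVars false
set_option linter.unusedVariables false

namespace Fermat.Agent.S58.LocM

open Fermat.Agent.S05 Fermat.Agent.S13
open WeierstrassCurve WeierstrassCurve.Affine WeierstrassCurve.Affine.Point

section map

variable {F F' : Type*} [Field F] [Field F'] (φ : F →+* F') (W : WeierstrassCurve F)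

lemma cenR_map : cenR (W.map φ) = φ (cenR W) := by
  simp only [cenR, map_b₂, map_b₄, map_b₆, map_c₄, map_div₀, map_sub, map_mul, map_ofNat]

lemma cenT_map : cenT (W.map φ) = φ (cenT W) := by
  simp only [cenT, cenR_map, map_b₂, map_a₁, map_a₂, map_a₃, map_a₄, map_div₀, map_sub, map_add,
    map_mul, map_pow, map_ofNat]

end map

variable {K : Type*} [Field K] [DecidableEq K] [Algebra ℚ K]

lemma xc_smul (W' : Affine ℚ) (σ : K ≃ₐ[ℚ] K) (P : (W'⁄K).Point) :
    xc (σ • P) = σ (xc P) := by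
  rcases P with _ | ⟨x, y, h⟩
  · change (0 : K) = σ 0
    simp
  · rfl

lemma yc_smul (W' : Affine ℚ) (σ : K ≃ₐ[ℚ] K) (P : (W'⁄K).Point) :
    yc (σ • P) = σ (yc P) := by
  rcases P with _ | ⟨x, y, h⟩
  · change (0 : K) = σ 0
    simp
  · rfl

lemma cenR_fixed (W' : WeierstrassCurve ℚ) (σ : K ≃ₐ[ℚ] K) :
    σ (cenR (W'⁄K)) = cenR (W'⁄K) := by
  change σ (cenR (W'.map (algebraMap ℚ K))) = cenR (W'.map (algebraMap ℚ K))
  rw [cenR_map, AlgEquiv.commutes]

lemma cenT_fixed (W' : WeierstrassCurve ℚ) (σ : K ≃ₐ[ℚ] K) :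
    σ (cenT (W'⁄K)) = cenT (W'⁄K) := by
  change σ (cenT (W'.map (algebraMap ℚ K))) = cenT (W'.map (algebraMap ℚ K))
  rw [cenT_map, AlgEquiv.commutes]

/-- elements of the inertia group are inertia-like automorphisms. -/
theorem isInert_of [Algebra.IsAlgebraic ℚ K] (W' : Affine ℚ) (A : ValuationSubring K)
    {σ : K ≃ₐ[ℚ] K} (hσ : σ ∈ A.inertiaSubgroupIn ℚ) (m : ℕ) :
    IsInert A.valuation (fun P : (W'⁄K).Point => xc P - cenR (W'⁄K))
      (fun P : (W'⁄K).Point => yc P - cenT (W'⁄K)) (tors (W'⁄K).Point m)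
      (DistribSMul.toAddMonoidHom (W'⁄K).Point σ) (σ : K →+* K) where
  mem := fun P hP => by
    rw [mem_tors] at hP ⊢
    rw [← map_nsmul, hP, _root_.map_zero]
  ne_zero := fun P hP => (smul_ne_zero_iff_ne σ).mpr hP
  X_eq := fun P => by
    change xc (σ • P) - cenR (W'⁄K) = σ (xc P - cenR (W'⁄K))
    rw [map_sub, xc_smul, cenR_fixed]
  Z_eq := fun P => by
    change yc (σ • P) - cenT (W'⁄K) = σ (yc P - cenT (W'⁄K))
    rw [map_sub, yc_smul, cenT_fixed]
  congr := fun x hx => inertia_congr A hσ hx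
  val := fun x => val_sigma_eq A hσ x

end Fermat.Agent.S58.LocM
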