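import Fermat.Agent.S58.LocM.Defs

/-!
# S58 / LOCM : the points of a Weierstrass curve in shifted coordinates form an `IsWC`
-/

set_option autoImplicit false
set_option linter.unusedSectionVars false
set_option linter.unusedVariables false

namespace Fermat.Agent.S58.LocM

open Fermat.Agent.S13
open WeierstrassCurve WeierstrassCurve.Affine WeierstrassCurve.Affine.Point

variable {F : Type*} [Field F] [DecidableEq F]

lemma Inst_ne {W : Affine F} {P Q : W.Point} (hne : xc P ≠ xc Q) : P + Q ≠ 0 ∧ P - Q ≠ 0 := by
  constructor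
  · intro h0
    apply hne
    rw [eq_neg_of_add_eq_zero_left h0, xc_neg]
  · intro h0
    apply hne
    rw [sub_eq_zero.mp h0]

/-- the shifted coordinates `X = x - r`, `Z = y - t` on the points of `W` satisfy the formulas of
the shifted curve.  (All formulas follow from `S13/XOnly.lean` : `xc_neg`, `xc_eq_iff`,
`xc_add_sub` (with `c = r`), `xc_add_add_sub`, `xc_two_nsmul`, and `ring`.) -/
theorem isWC_shift (W : Affine F) (r t : F) :
    IsWC (shift W r t) (fun P : W.Point => xc P - r) (fun P : W.Point => yc P - t) where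
  X_neg := fun P => by simp only [xc_neg]
  Z_neg := fun P hP => by
    rcases P with _ | ⟨x, y, h⟩
    · exact absurd rfl hP
    · simp only [Point.neg_some, yc_some, xc_some, negY, shift]
      ring
  X_eq_iff := fun {P Q} hP hQ => by
    rw [← xc_eq_iff hP hQ]
    exact sub_left_inj
  eqn := fun P hP => by
    rcases P with _ | ⟨x, y, h⟩
    · exact absurd rfl hP
    · have e := (equation_iff _ _).1 h.1
      simp only [yc_some, xc_some, shift]
      linear_combination e
  dbl := fun {P} hP hPP => by
    rcases P with _ | ⟨x, y, h⟩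
    · exact absurd rfl hP
    · rw [← two_nsmul] at hPP ⊢
      have h2 := xc_two_nsmul h hPP
      have e := (equation_iff _ _).1 h.1
      rw [shift_b₄, shift_b₆, shift_b₈]
      simp only [yc_some, xc_some, shift]
      generalize xc (2 • Point.some x y h) = w at h2 ⊢
      have e2 : (2 * y + W.a₁ * x + W.a₃) ^ 2 = 4 * x ^ 3 + W.b₂ * x ^ 2 + 2 * W.b₄ * x + W.b₆ := by
        simp only [WeierstrassCurve.b₂, WeierstrassCurve.b₄, WeierstrassCurve.b₆]
        linear_combination 4 * e
      have e3 : 2 * (y - t) + W.a₁ * (x - r) + (W.a₃ + r * W.a₁ + 2 * t) =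
          2 * y + W.a₁ * x + W.a₃ := by ring
      rw [e3]
      linear_combination h2 + (x - r) * e2
  add_add_sub := fun {P Q} hP hQ hne => by
    have hne' : xc P ≠ xc Q := fun h => hne (by simp only [h])
    obtain ⟨hs, hd⟩ := Inst_ne hne'
    have h1 := xc_add_add_sub P Q hP hQ hs hd
    rw [shift_b₂, shift_b₄, shift_b₆]
    linear_combination h1
  add_mul_sub := fun {P Q} hP hQ hne => by
    have hne' : xc P ≠ xc Q := fun h => hne (by simp only [h])
    obtain ⟨hs, hd⟩ := Inst_ne hne'
    have h1 := xc_add_sub P Q hP hQ hs hd r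
    rw [shift_b₄, shift_b₆, shift_b₈]
    simp only [Phi3] at h1 ⊢
    linear_combination h1

end Fermat.Agent.S58.LocM
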