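import Fermat.Agent.S58.Loc.Integral

/-!
# S58 / LOCM / M1 : torsion points of order prime to the residue characteristic are integral
-/

set_option autoImplicit false
set_option linter.unusedSectionVars false
set_option linter.unusedVariables false

namespace Fermat.Agent.S58.LocM

open Fermat.Agent.S13

variable {K : Type*} [Field K]

/-- **M1.** (a reformulation of `S58/Loc/Integral.lean`, `xc_mem`.) -/
theorem val_xc_le_one [DecidableEq K] (A : ValuationSubring K) {W : WeierstrassCurve.Affine K}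
    (h₁ : A.valuation W.a₁ ≤ 1) (h₂ : A.valuation W.a₂ ≤ 1) (h₃ : A.valuation W.a₃ ≤ 1)
    (h₄ : A.valuation W.a₄ ≤ 1) (h₆ : A.valuation W.a₆ ≤ 1) {m : ℕ}
    (hm : A.valuation (m : K) = 1) {P : W.Point} (hP : P ≠ 0) (hmP : m • P = 0) :
    A.valuation (xc P) ≤ 1 := by
  rw [ValuationSubring.valuation_le_one_iff] at h₁ h₂ h₃ h₄ h₆ ⊢
  let W₀ : WeierstrassCurve ↥A := ⟨⟨W.a₁, h₁⟩, ⟨W.a₂, h₂⟩, ⟨W.a₃, h₃⟩, ⟨W.a₄, h₄⟩, ⟨W.a₆, h₆⟩⟩
  exact Loc.xc_mem A W₀ m hm P hmP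

end Fermat.Agent.S58.LocM
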