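import Fermat.Agent.S58.Contracts
import Fermat.Agent.S58.LocM.Abs.Main
import Fermat.Agent.S58.LocM.Inst
import Fermat.Agent.S58.LocM.Arith
import Fermat.Agent.S58.LocM.Integral
import Fermat.Agent.S58.LocM.Galois

/-!
# S58 / LOCM : inertia at a multiplicative prime acts unipotently on odd torsion
-/

set_option autoImplicit false
set_option linter.unusedSectionVars false
set_option linter.unusedVariables false

namespace Fermat.Agent.S58.LocM

open Fermat.Agent.S05 Fermat.Agent.S13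
open WeierstrassCurve WeierstrassCurve.Affine WeierstrassCurve.Affine.Point

/-- `2` is invertible on odd torsion. -/
lemma half_of_odd {G : Type*} [AddCommGroup G] {m : ℕ} (hm : Odd m) {P : G} (hP : m • P = 0) :
    ∃ k : ℕ, k • (P + P) = P := by
  obtain ⟨k, hk⟩ := hm
  refine ⟨k + 1, ?_⟩
  rw [← two_nsmul, ← mul_smul, show (k + 1) * 2 = m + 1 by omega, succ_nsmul, hP, zero_add]

theorem isAlgebraic_Qb (inst : Algebra ℚ Qb) : @Algebra.IsAlgebraic ℚ Qb _ _ inst := by
  have h : inst = AlgebraicClosure.instAlgebra ℚ := Subsingleton.elim _ _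
  rw [h]
  infer_instance

theorem stmtInertMult : StmtInertMult := by
  intro W q hq hΔ hqΔ hqc A hA σ hσ m hm hqm P hP
  have hv : A.valuation ((q : ℕ) : Qb) < 1 := A.mem_nonunits_iff.mp hA
  have hAlg := isAlgebraic_Qb inferInstance
  have hW := isInt_of (K := Qb) A.valuation W
  have hc4 : A.valuation ((EQ W)⁄Qb).c₄ = 1 := by
    rw [c₄_of]; exact valInt_eq_one _ hq hv hqc
  have hΔ1 : A.valuation ((EQ W)⁄Qb).Δ < 1 := by
    rw [Δ_of]; exact valInt_lt_one _ hv hqΔ
  have hΔ0 : ((EQ W)⁄Qb).Δ ≠ 0 := by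
    rw [Δ_of]; exact_mod_cast hΔ
  have hmv : A.valuation (m : Qb) = 1 := by
    have := valInt_eq_one A.valuation hq hv (n := (m : ℤ)) (by exact_mod_cast hqm)
    simpa using this
  have hN := isNodal_cen hW hc4 hΔ1 hΔ0
  have hT : IsTors A.valuation (fun P : EP W => xc P - cenR ((EQ W)⁄Qb)) (tors (EP W) m) := by
    refine ⟨fun Q hQ hQ0 => ?_, fun Q hQ => half_of_odd hm hQ⟩
    exact le1_sub _ (val_xc_le_one A hW.a₁ hW.a₂ hW.a₃ hW.a₄ hW.a₆ hmv hQ0 hQ) (val_cenR hW hc4)
  exact unipotent_abs (isWC_shift ((EQ W)⁄Qb) _ _) hN hT (isInert_of (EQ W) A hσ m) hP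

end Fermat.Agent.S58.LocM
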