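import Fermat.Agent.S58.LocM.Defs

/-!
# S58 / LOCM : the centred curve, algebraic identities
-/

set_option autoImplicit false

namespace Fermat.Agent.S58.LocM

open WeierstrassCurve

variable {F : Type*} [Field F] (W : WeierstrassCurve F)

lemma cen_a₁ : (cen W).a₁ = W.a₁ := rfl

lemma cen_a₂ : (cen W).a₂ = W.a₂ + 3 * cenR W := rfl

lemma cen_b₂ (hc4 : W.c₄ ≠ 0) : (cen W).b₂ = - W.c₆ / W.c₄ := by
  rw [cen, shift_b₂, cenR]
  field_simp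
  simp only [WeierstrassCurve.c₄, WeierstrassCurve.c₆]
  ring

lemma cen_b₄ (hc4 : W.c₄ ≠ 0) : (cen W).b₄ = - 72 * W.Δ / W.c₄ ^ 2 := by
  rw [cen, shift_b₄, cenR]
  field_simp
  simp only [WeierstrassCurve.c₄, WeierstrassCurve.Δ]
  linear_combination (-18 * W.b₂ ^ 2) * W.b_relation

lemma cenT_mul (hb : W.b₂ + 12 * cenR W ≠ 0) :
    cenT W * (W.b₂ + 12 * cenR W) = W.a₁ * (3 * cenR W ^ 2 + 2 * W.a₂ * cenR W + W.a₄)
    - (2 * W.a₂ + 6 * cenR W) * (W.a₁ * cenR W + W.a₃) := by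
  rw [cenT, div_mul_cancel₀ _ hb]

lemma cen_a₃ (hc4 : W.c₄ ≠ 0) (hc6 : W.c₆ ≠ 0) :
    (cen W).a₃ = W.a₁ * (cen W).b₄ / (cen W).b₂ := by
  have hb : (cen W).b₂ ≠ 0 := by
    rw [cen_b₂ W hc4]; exact div_ne_zero (neg_ne_zero.mpr hc6) hc4
  have hb' : W.b₂ + 12 * cenR W ≠ 0 := by rwa [cen, shift_b₂] at hb
  have ht := cenT_mul W hb'
  rw [eq_div_iff hb, cen, shift_b₂, shift_b₄]
  simp only [shift]
  simp only [WeierstrassCurve.b₂, WeierstrassCurve.b₄] at ht ⊢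
  linear_combination 2 * ht

lemma cen_a₄ (hc4 : W.c₄ ≠ 0) (hc6 : W.c₆ ≠ 0) :
    (cen W).a₄ = 2 * (cen W).a₂ * (cen W).b₄ / (cen W).b₂ := by
  have hb : (cen W).b₂ ≠ 0 := by
    rw [cen_b₂ W hc4]; exact div_ne_zero (neg_ne_zero.mpr hc6) hc4
  have hb' : W.b₂ + 12 * cenR W ≠ 0 := by rwa [cen, shift_b₂] at hb
  have ht := cenT_mul W hb'
  rw [eq_div_iff hb, cen, shift_b₂, shift_b₄]
  simp only [shift]
  simp only [WeierstrassCurve.b₂, WeierstrassCurve.b₄] at ht ⊢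
  linear_combination (-W.a₁) * ht

lemma cen_b₈ [CharZero F] (hc4 : W.c₄ ≠ 0) :
    (cen W).b₈ = - (W.c₆ ^ 2 + 1296 * W.Δ) * W.Δ / W.c₄ ^ 4 := by
  have hb8 : W.b₈ = (W.b₂ * W.b₆ - W.b₄ ^ 2) / 4 := by
    rw [eq_div_iff (by norm_num), ← W.b_relation]; ring
  rw [cen, shift_b₈, cenR]
  field_simp
  simp only [WeierstrassCurve.c₄, WeierstrassCurve.c₆, WeierstrassCurve.Δ, hb8]
  ring

end Fermat.Agent.S58.LocM
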