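import Fermat.Agent.S58.LocM.CentreAlg

/-!
# S58 / LOCM / M0 : the centred curve is nodal
-/

set_option autoImplicit false
set_option linter.unusedSectionVars false
set_option linter.unusedVariables false

namespace Fermat.Agent.S58.LocM

open Fermat.Agent.S05

variable {K : Type*} [Field K] [CharZero K] {Γ₀ : Type*} [LinearOrderedCommGroupWithZero Γ₀]
  {v : Valuation K Γ₀} {W : WeierstrassCurve K}

/-- integrality of the coefficients. -/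
structure IsInt (v : Valuation K Γ₀) (W : WeierstrassCurve K) : Prop where
  a₁ : v W.a₁ ≤ 1
  a₂ : v W.a₂ ≤ 1
  a₃ : v W.a₃ ≤ 1
  a₄ : v W.a₄ ≤ 1
  a₆ : v W.a₆ ≤ 1

lemma CentreVal_b₂ (hW : IsInt v W) : v W.b₂ ≤ 1 := by
  unfold WeierstrassCurve.b₂
  exact le1_add v (le1_pow v hW.a₁ 2) (le1_mul v (le1_ofNat v 4) hW.a₂)

lemma CentreVal_b₄ (hW : IsInt v W) : v W.b₄ ≤ 1 := by
  unfold WeierstrassCurve.b₄
  exact le1_add v (le1_mul v (le1_ofNat v 2) hW.a₄) (le1_mul v hW.a₁ hW.a₃)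

lemma CentreVal_b₆ (hW : IsInt v W) : v W.b₆ ≤ 1 := by
  unfold WeierstrassCurve.b₆
  exact le1_add v (le1_pow v hW.a₃ 2) (le1_mul v (le1_ofNat v 4) hW.a₆)

lemma CentreVal_mul_le {α : Γ₀} {a b : K} (ha : v a ≤ 1) (hb : v b ≤ α) : v (a * b) ≤ α := by
  rw [map_mul]
  calc v a * v b ≤ 1 * α := mul_le_mul' ha hb
    _ = α := one_mul _

lemma CentreVal_div_le {α : Γ₀} {a b : K} (ha : v a ≤ α) (hb : v b = 1) : v (a / b) ≤ α := by
  rw [map_div₀, hb, div_one]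
  exact ha

lemma val_c₆ (hW : IsInt v W) (hc4 : v W.c₄ = 1) (hΔ : v W.Δ < 1) : v W.c₆ = 1 := by
  have h1 : W.c₆ ^ 2 = W.c₄ ^ 3 - 1728 * W.Δ := by linear_combination W.c_relation
  have h2 : v (1728 * W.Δ) < 1 := lt1_mul_right v (le1_ofNat v 1728) hΔ
  have h3 : v (W.c₄ ^ 3) = 1 := by rw [map_pow, hc4, one_pow]
  have h4 : v (W.c₆ ^ 2) = 1 := by
    rw [h1, Valuation.map_sub_eq_of_lt_left _ (by rw [h3]; exact h2), h3]
  rw [map_pow] at h4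
  exact (pow_eq_one_iff.mp h4).resolve_right two_ne_zero

lemma val_cenR (hW : IsInt v W) (hc4 : v W.c₄ = 1) : v (cenR W) ≤ 1 := by
  unfold cenR
  exact CentreVal_div_le (le1_sub v (le1_mul v (le1_ofNat v 18) (CentreVal_b₆ hW))
    (le1_mul v (CentreVal_b₂ hW) (CentreVal_b₄ hW))) hc4

/-- **M0.** -/
theorem isNodal_cen (hW : IsInt v W) (hc4 : v W.c₄ = 1) (hΔ : v W.Δ < 1) (hΔ0 : W.Δ ≠ 0) :
    IsNodal v (cen W) (v W.Δ) := by
  have hc6 : v W.c₆ = 1 := val_c₆ hW hc4 hΔ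
  have hc40 : W.c₄ ≠ 0 := fun e => by
    rw [e, map_zero] at hc4
    exact zero_ne_one hc4
  have hc60 : W.c₆ ≠ 0 := fun e => by
    rw [e, map_zero] at hc6
    exact zero_ne_one hc6
  have hpos : 0 < v W.Δ := zero_lt_iff.mpr ((Valuation.ne_zero_iff v).mpr hΔ0)
  have ha₁ : v (cen W).a₁ ≤ 1 := by
    rw [cen_a₁]
    exact hW.a₁
  have ha₂ : v (cen W).a₂ ≤ 1 := by
    rw [cen_a₂]
    exact le1_add v hW.a₂ (le1_mul v (le1_ofNat v 3) (val_cenR hW hc4))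
  have hb₂ : v (cen W).b₂ = 1 := by
    rw [cen_b₂ W hc40, map_div₀, Valuation.map_neg, hc6, hc4, div_one]
  have hb₄ : v (cen W).b₄ ≤ v W.Δ := by
    rw [cen_b₄ W hc40]
    refine CentreVal_div_le (CentreVal_mul_le ?_ le_rfl) (by rw [map_pow, hc4, one_pow])
    exact le1_neg v (le1_ofNat v 72)
  have ha₃ : v (cen W).a₃ ≤ v W.Δ := by
    rw [cen_a₃ W hc40 hc60]
    exact CentreVal_div_le (CentreVal_mul_le hW.a₁ hb₄) hb₂
  have ha₄ : v (cen W).a₄ ≤ v W.Δ := by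
    rw [cen_a₄ W hc40 hc60]
    exact CentreVal_div_le (CentreVal_mul_le (le1_mul v (le1_ofNat v 2) ha₂) hb₄) hb₂
  have hb₈ : v (cen W).b₈ = v W.Δ := by
    have h1 : v (W.c₆ ^ 2 + 1296 * W.Δ) = 1 := by
      have h2 : v (W.c₆ ^ 2) = 1 := by rw [map_pow, hc6, one_pow]
      rw [Valuation.map_add_eq_of_lt_left _
        (by rw [h2]; exact lt1_mul_right v (le1_ofNat v 1296) hΔ), h2]
    rw [cen_b₈ W hc40, map_div₀, map_mul, Valuation.map_neg, h1, one_mul, map_pow, hc4, one_pow,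
      div_one]
  have ha₃1 : v (cen W).a₃ ≤ 1 := ha₃.trans hΔ.le
  have ha₄1 : v (cen W).a₄ ≤ 1 := ha₄.trans hΔ.le
  have ha₆ : v (cen W).a₆ ≤ v W.Δ := by
    have h1 : (cen W).b₂ * (cen W).a₆ = (cen W).b₈ + (cen W).a₁ * (cen W).a₃ * (cen W).a₄
        - (cen W).a₂ * (cen W).a₃ * (cen W).a₃ + (cen W).a₄ * (cen W).a₄ := by
      simp only [WeierstrassCurve.b₂, WeierstrassCurve.b₈]
      ring
    have h2 : v ((cen W).b₂ * (cen W).a₆) ≤ v W.Δ := by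
      rw [h1]
      refine Valuation.map_add_le _ (Valuation.map_sub_le _ (Valuation.map_add_le _ hb₈.le ?_) ?_) ?_
      · exact CentreVal_mul_le (le1_mul v ha₁ ha₃1) ha₄
      · exact CentreVal_mul_le (le1_mul v ha₂ ha₃1) ha₃
      · exact CentreVal_mul_le ha₄1 ha₄
    rwa [map_mul, hb₂, one_mul] at h2
  exact ⟨hpos, hΔ, ha₁, ha₂, ha₃, ha₄, ha₆, hb₂, hb₈⟩

end Fermat.Agent.S58.LocM
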