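import Fermat.Agent.S13.XOnly
import Fermat.Agent.S05.ClaimA

/-!
# S58 / LOCM : definitions

Abstract setting for "inertia at a multiplicative prime acts unipotently on odd torsion".

* `IsWC V X Z`   : `X, Z : G → K` are the coordinate functions of a group `G` of points of the
  Weierstrass curve `V` (only the `x`-only formulas are recorded);
* `IsNodal v V α` : `V` is integral, reduces to a nodal cubic whose node is at `(0,0)` *up to
  precision* `α = v Δ`;
* `IsTors v X T`  : `T` is a subgroup of points with integral `X` on which `2` is invertible;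
* `IsInert v X Z T σG σK` : an inertia-like automorphism.
-/

set_option autoImplicit false
set_option linter.unusedSectionVars false
set_option linter.unusedVariables false

namespace Fermat.Agent.S58.LocM

variable {G : Type*} [AddCommGroup G] {K : Type*} [Field K]
  {Γ₀ : Type*} [LinearOrderedCommGroupWithZero Γ₀]

/-- abstract arithmetic of the Weierstrass curve `V`; `X`, `Z` are the two coordinates (their values
at `0` are irrelevant). -/
structure IsWC (V : WeierstrassCurve K) (X Z : G → K) : Prop where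
  X_neg : ∀ P, X (-P) = X P
  Z_neg : ∀ P, P ≠ 0 → Z (-P) = -Z P - V.a₁ * X P - V.a₃
  X_eq_iff : ∀ {P Q : G}, P ≠ 0 → Q ≠ 0 → (X P = X Q ↔ P = Q ∨ P = -Q)
  eqn : ∀ P, P ≠ 0 → Z P ^ 2 + V.a₁ * X P * Z P + V.a₃ * Z P =
    X P ^ 3 + V.a₂ * X P ^ 2 + V.a₄ * X P + V.a₆
  dbl : ∀ {P : G}, P ≠ 0 → P + P ≠ 0 →
    X (P + P) * (2 * Z P + V.a₁ * X P + V.a₃) ^ 2 =
      X P ^ 4 - V.b₄ * X P ^ 2 - 2 * V.b₆ * X P - V.b₈
  add_add_sub : ∀ {P Q : G}, P ≠ 0 → Q ≠ 0 → X P ≠ X Q →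
    (X (P + Q) + X (P - Q)) * (X P - X Q) ^ 2 =
      2 * (X P + X Q) * (X P * X Q) + V.b₂ * (X P * X Q) + V.b₄ * (X P + X Q) + V.b₆
  add_mul_sub : ∀ {P Q : G}, P ≠ 0 → Q ≠ 0 → X P ≠ X Q →
    X (P + Q) * X (P - Q) * (X P - X Q) ^ 2 =
      X P ^ 2 * X Q ^ 2 - V.b₄ * (X P * X Q) - V.b₆ * (X P + X Q) - V.b₈

/-- `V` is integral and its reduction is a nodal cubic, the node being `(0,0)` up to
precision `α`. -/
structure IsNodal (v : Valuation K Γ₀) (V : WeierstrassCurve K) (α : Γ₀) : Prop where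
  pos : 0 < α
  lt_one : α < 1
  a₁ : v V.a₁ ≤ 1
  a₂ : v V.a₂ ≤ 1
  a₃ : v V.a₃ ≤ α
  a₄ : v V.a₄ ≤ α
  a₆ : v V.a₆ ≤ α
  b₂ : v V.b₂ = 1
  b₈ : v V.b₈ = α

/-- a subgroup of points with integral `X`-coordinate on which `2` is invertible. -/
structure IsTors (v : Valuation K Γ₀) (X : G → K) (T : AddSubgroup G) : Prop where
  int : ∀ P ∈ T, P ≠ 0 → v (X P) ≤ 1
  half : ∀ P ∈ T, ∃ k : ℕ, k • (P + P) = P

/-- an inertia-like automorphism. -/
structure IsInert (v : Valuation K Γ₀) (X Z : G → K) (T : AddSubgroup G) (σG : G →+ G)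
    (σK : K →+* K) : Prop where
  mem : ∀ P ∈ T, σG P ∈ T
  ne_zero : ∀ P, P ≠ 0 → σG P ≠ 0
  X_eq : ∀ P, X (σG P) = σK (X P)
  Z_eq : ∀ P, Z (σG P) = σK (Z P)
  congr : ∀ x, v x ≤ 1 → v (σK x - x) < 1
  val : ∀ x, v (σK x) = v x

/-- the `m`-torsion subgroup. -/
def tors (G : Type*) [AddCommGroup G] (m : ℕ) : AddSubgroup G :=
  (nsmulAddMonoidHom (α := G) m).ker

lemma mem_tors {m : ℕ} {P : G} : P ∈ tors G m ↔ m • P = 0 := Iff.rfl

/-! ### the concrete coordinates -/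

section concrete

variable {F : Type*} [Field F]

/-- the `y`-coordinate, with value `0` at infinity. -/
def yc {W : WeierstrassCurve.Affine F} : W.Point → F
  | .zero => 0
  | .some _ y _ => y

@[simp] lemma yc_some {W : WeierstrassCurve.Affine F} {x y : F} (h : W.Nonsingular x y) :
    yc (WeierstrassCurve.Affine.Point.some x y h) = y := rfl

/-- the curve `W` in the coordinates `X = x - r`, `Z = y - t`. -/
def shift (W : WeierstrassCurve F) (r t : F) : WeierstrassCurve F where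
  a₁ := W.a₁
  a₂ := W.a₂ + 3 * r
  a₃ := W.a₃ + r * W.a₁ + 2 * t
  a₄ := W.a₄ + 2 * r * W.a₂ - t * W.a₁ + 3 * r ^ 2
  a₆ := W.a₆ + r * W.a₄ + r ^ 2 * W.a₂ + r ^ 3 - t * W.a₃ - t ^ 2 - r * t * W.a₁

lemma shift_b₂ (W : WeierstrassCurve F) (r t : F) : (shift W r t).b₂ = W.b₂ + 12 * r := by
  simp only [shift, WeierstrassCurve.b₂]; ring

lemma shift_b₄ (W : WeierstrassCurve F) (r t : F) :
    (shift W r t).b₄ = W.b₄ + r * W.b₂ + 6 * r ^ 2 := by
  simp only [shift, WeierstrassCurve.b₂, WeierstrassCurve.b₄]; ring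

lemma shift_b₆ (W : WeierstrassCurve F) (r t : F) :
    (shift W r t).b₆ = W.b₆ + 2 * r * W.b₄ + r ^ 2 * W.b₂ + 4 * r ^ 3 := by
  simp only [shift, WeierstrassCurve.b₂, WeierstrassCurve.b₄, WeierstrassCurve.b₆]; ring

lemma shift_b₈ (W : WeierstrassCurve F) (r t : F) :
    (shift W r t).b₈ = W.b₈ + 3 * r * W.b₆ + 3 * r ^ 2 * W.b₄ + r ^ 3 * W.b₂ + 3 * r ^ 4 := by
  simp only [shift, WeierstrassCurve.b₂, WeierstrassCurve.b₄, WeierstrassCurve.b₆,
    WeierstrassCurve.b₈]; ring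

/-- the `x`-coordinate of the approximate node: `(18 b₆ - b₂ b₄) / c₄`. -/
def cenR (W : WeierstrassCurve F) : F := (18 * W.b₆ - W.b₂ * W.b₄) / W.c₄

/-- the `y`-coordinate of the approximate node. -/
def cenT (W : WeierstrassCurve F) : F :=
  (W.a₁ * (3 * cenR W ^ 2 + 2 * W.a₂ * cenR W + W.a₄)
    - (2 * W.a₂ + 6 * cenR W) * (W.a₁ * cenR W + W.a₃)) / (W.b₂ + 12 * cenR W)

/-- the curve centred at the approximate node. -/
def cen (W : WeierstrassCurve F) : WeierstrassCurve F := shift W (cenR W) (cenT W)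

end concrete

end Fermat.Agent.S58.LocM
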